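import Fermat.Agent.CAR.KLm.Basic
import Fermat.Agent.GAL.KL.ONBasisB

/-!
# CAR / KLm : every `L[t]`-lattice has a basis which is orthonormal for the sup norm
(port of `GAL/KL/ONBasisStep.lean`, `ONBasisB.lean`)
-/

set_option autoImplicit false

namespace Fermat.Agent.CAR.KLm

open Polynomial Fermat.Agent.GAL.KL

variable {L F Γ₀ ι : Type*} [Field L] [Field F] [Algebra L F] [LinearOrderedCommGroupWithZero Γ₀]
  [Fintype ι] [Nonempty ι]
variable {v : ι → Valuation F Γ₀} {o : ι} {t : F}

/-- replacing `ε i₀` by `y`, where `T(t) y = ∑ b_i ε_i`, `v (b_i) ≤ v (T(t)) = v (b_{i₀})`, keeps the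
family orthonormal. -/
theorem onm_update (S : Setup L v t) {d : ℕ} {ε : Fin d → F} (hε : ONm L v o t ε) (T : L[X])
    (b : Fin d → L) (i₀ : Fin d) (hT : v o (aeval t T) ≠ 0)
    (hb : ∀ i, v o (algebraMap L F (b i)) ≤ v o (aeval t T))
    (hb0 : v o (algebraMap L F (b i₀)) = v o (aeval t T))
    (y : F) (hy : aeval t T * y = ∑ i, algebraMap L F (b i) * ε i) :
    ONm L v o t (Function.update ε i₀ y) := by
  intro p γ
  have hr0 : 0 < v o (aeval t T) := zero_lt_iff.mpr hT
  let p2 : Fin d → L[X] := fun i => (if i = i₀ then 0 else T * p i) + C (b i) * p i₀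
  have key : aeval t T * comb L t p (Function.update ε i₀ y) = comb L t p2 ε := by
    unfold comb
    have h1 : ∀ i, aeval t T * (aeval t (p i) * Function.update ε i₀ y i)
        = (if i = i₀ then 0 else aeval t T * aeval t (p i) * ε i)
          + (if i = i₀ then aeval t (p i₀) * (aeval t T * y) else 0) := by
      intro i
      by_cases h : i = i₀
      · subst h
        simp only [Function.update_self, if_true]
        ring
      · simp only [Function.update_of_ne h, if_neg h]
        ring
    have h2 : ∀ i, aeval t (p2 i) * ε i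
        = (if i = i₀ then 0 else aeval t T * aeval t (p i) * ε i)
          + aeval t (p i₀) * (algebraMap L F (b i) * ε i) := by
      intro i
      by_cases h : i = i₀
      · subst h
        simp only [p2, if_true, zero_add, map_mul, aeval_C]
        ring
      · simp only [p2, if_neg h, map_add, map_mul, aeval_C]
        ring
    rw [Finset.mul_sum, Finset.sum_congr rfl fun i _ => h1 i,
      Finset.sum_congr rfl fun i _ => h2 i, Finset.sum_add_distrib, Finset.sum_add_distrib,
      Finset.sum_ite_eq' Finset.univ i₀, if_pos (Finset.mem_univ i₀), hy, Finset.mul_sum]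
  have hiff : NN v (comb L t p (Function.update ε i₀ y)) ≤ γ ↔
      NN v (comb L t p2 ε) ≤ v o (aeval t T) * γ := by
    rw [← key, S.NN_aeval_mul o, mul_le_mul_iff_right₀ hr0]
  rw [hiff, hε p2 (v o (aeval t T) * γ)]
  have hp2i0 : aeval t (p2 i₀) = algebraMap L F (b i₀) * aeval t (p i₀) := by
    simp only [p2, if_true, zero_add, map_mul, aeval_C]
  have hp2 : ∀ i, i ≠ i₀ → aeval t (p2 i)
      = aeval t T * aeval t (p i) + algebraMap L F (b i) * aeval t (p i₀) := by
    intro i h
    simp only [p2, if_neg h, map_add, map_mul, aeval_C]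
  constructor
  · intro h
    have h0 : v o (aeval t (p i₀)) ≤ γ := by
      have := h i₀
      rwa [hp2i0, map_mul, hb0, mul_le_mul_iff_right₀ hr0] at this
    intro i
    by_cases hi : i = i₀
    · rw [hi]; exact h0
    · have h1 := h i
      have h2 : aeval t T * aeval t (p i)
          = aeval t (p2 i) - algebraMap L F (b i) * aeval t (p i₀) := by
        rw [hp2 i hi]; ring
      have h3 : v o (aeval t T * aeval t (p i)) ≤ v o (aeval t T) * γ := by
        rw [h2]
        refine (Valuation.map_sub _ _ _).trans (max_le h1 ?_)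
        rw [map_mul]
        exact mul_le_mul' (hb i) h0
      rwa [map_mul, mul_le_mul_iff_right₀ hr0] at h3
  · intro h i
    by_cases hi : i = i₀
    · rw [hi, hp2i0, map_mul, hb0]
      exact mul_le_mul' le_rfl (h i₀)
    · rw [hp2 i hi]
      refine (Valuation.map_add _ _ _).trans (max_le ?_ ?_)
      · rw [map_mul]
        exact mul_le_mul' le_rfl (h i)
      · rw [map_mul]
        exact mul_le_mul' (hb i) (h i₀)

/-- one reduction step: the degree of the determinant drops by one. -/
theorem onm_step [IsAlgClosed L] (S : Setup L v t) {d : ℕ} (a : Fin d → F)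
    (P : Matrix (Fin d) (Fin d) L[X]) (hP : P.det ≠ 0) (hdeg : P.det.natDegree ≠ 0)
    (hON : ONm L v o t (fun i => comb L t (P i) a)) :
    ∃ P' : Matrix (Fin d) (Fin d) L[X], P'.det ≠ 0 ∧ P'.det.natDegree + 1 = P.det.natDegree ∧
      ONm L v o t (fun i => comb L t (P' i) a) := by
  classical
  have hG := (S.G o)
  have hdeg' : P.det.degree ≠ 0 := by
    intro h
    exact hdeg (natDegree_eq_of_degree_eq_some h)
  obtain ⟨θ, hθ⟩ := IsAlgClosed.exists_root P.det hdeg'
  have hdet0 : ((evalRingHom θ).mapMatrix P).det = 0 := by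
    rw [← RingHom.map_det]
    exact hθ
  obtain ⟨α, hα0, hα⟩ := Matrix.exists_vecMul_eq_zero_iff.mpr hdet0
  have hdvd : ∀ j, (X - C θ) ∣ ∑ i, C (α i) * P i j := by
    intro j
    rw [dvd_iff_isRoot, IsRoot.def, eval_finsetSum]
    have h := congrFun hα j
    simp only [Matrix.vecMul, dotProduct, RingHom.mapMatrix_apply, Matrix.map_apply,
      coe_evalRingHom, Pi.zero_apply] at h
    simpa [eval_mul, eval_C] using h
  choose π hπ using hdvd
  obtain ⟨i₁, hi₁⟩ : ∃ i, α i ≠ 0 := by
    by_contra hcon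
    push Not at hcon
    exact hα0 (funext hcon)
  obtain ⟨i₀, -, hi₀⟩ := Finset.exists_max_image Finset.univ
    (fun i => v o (algebraMap L F (α i))) ⟨i₁, Finset.mem_univ i₁⟩
  have hαi₀ : α i₀ ≠ 0 := by
    intro h0
    have h1 := hi₀ i₁ (Finset.mem_univ i₁)
    simp only [h0, map_zero, le_zero_iff, map_eq_zero] at h1
    exact hi₁ h1
  obtain ⟨a0, ha0⟩ := hG.exists_const (X - C θ)
  have hTne : aeval t (X - C θ : L[X]) ≠ 0 := fun h => X_sub_C_ne_zero θ (hG.inj _ h)
  have hvT : v o (aeval t (X - C θ : L[X])) ≠ 0 := (Valuation.ne_zero_iff (v o)).mpr hTne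
  have ha0ne : a0 ≠ 0 := by
    rintro rfl
    rw [map_zero, map_zero] at ha0
    exact hvT ha0
  set c : L := a0 / α i₀ with hc
  have hcne : c ≠ 0 := div_ne_zero ha0ne hαi₀
  have hb0 : v o (algebraMap L F (c * α i₀)) = v o (aeval t (X - C θ : L[X])) := by
    rw [hc, div_mul_cancel₀ _ hαi₀, ha0]
  have hb : ∀ i, v o (algebraMap L F (c * α i)) ≤ v o (aeval t (X - C θ : L[X])) := by
    intro i
    rw [← hb0, map_mul, map_mul, map_mul, map_mul]
    exact mul_le_mul' le_rfl (hi₀ i (Finset.mem_univ i))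
  have hy : aeval t (X - C θ : L[X]) * comb L t (fun j => C c * π j) a
      = ∑ i, algebraMap L F (c * α i) * comb L t (P i) a := by
    unfold comb
    rw [Finset.mul_sum]
    have h1 : ∀ j, aeval t (X - C θ : L[X]) * (aeval t (C c * π j) * a j)
        = ∑ i, algebraMap L F (c * α i) * (aeval t (P i j) * a j) := by
      intro j
      have h2 : aeval t (X - C θ : L[X]) * aeval t (π j)
          = ∑ i, algebraMap L F (α i) * aeval t (P i j) := by
        rw [← map_mul, ← hπ j, map_sum]
        refine Finset.sum_congr rfl fun i _ => ?_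
        rw [map_mul, aeval_C]
      have h3 : aeval t (X - C θ : L[X]) * (aeval t (C c * π j) * a j)
          = algebraMap L F c * a j * (aeval t (X - C θ : L[X]) * aeval t (π j)) := by
        rw [map_mul, aeval_C]; ring
      rw [h3, h2, Finset.mul_sum]
      refine Finset.sum_congr rfl fun i _ => ?_
      rw [map_mul]; ring
    rw [Finset.sum_congr rfl fun j _ => h1 j, Finset.sum_comm]
    refine Finset.sum_congr rfl fun i _ => ?_
    rw [Finset.mul_sum]
  have hONnew := onm_update S hON (X - C θ) (fun i => c * α i) i₀ hvT hb hb0 _ hy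
  have hfam : (fun i => comb L t ((P.updateRow i₀ (fun j => C c * π j)) i) a)
      = Function.update (fun i => comb L t (P i) a) i₀ (comb L t (fun j => C c * π j) a) := by
    funext i
    by_cases h : i = i₀
    · subst h
      rw [Function.update_self, Matrix.updateRow_self]
    · rw [Function.update_of_ne h, Matrix.updateRow_ne h]
  have hrow : (∑ k, (C (α k)) • P k) = (X - C θ) • π := by
    funext j
    rw [Finset.sum_apply, Pi.smul_apply, smul_eq_mul, ← hπ j]
    rfl
  have hd1 : C (α i₀) * P.det = (X - C θ) * (P.updateRow i₀ π).det := by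
    have h1 := Matrix.det_updateRow_sum P i₀ (fun k => C (α k))
    rw [hrow, Matrix.det_updateRow_smul, smul_eq_mul] at h1
    exact h1.symm
  have hd2 : (P.updateRow i₀ (fun j => C c * π j)).det = C c * (P.updateRow i₀ π).det := by
    have : (fun j => C c * π j) = C c • π := rfl
    rw [this, Matrix.det_updateRow_smul]
  have hDne : (P.updateRow i₀ π).det ≠ 0 := by
    intro h0
    rw [h0, mul_zero] at hd1
    exact (mul_ne_zero (C_ne_zero.mpr hαi₀) hP) hd1
  refine ⟨P.updateRow i₀ (fun j => C c * π j), ?_, ?_, ?_⟩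
  · rw [hd2]
    exact mul_ne_zero (C_ne_zero.mpr hcne) hDne
  · rw [hd2, natDegree_C_mul hcne]
    have h1 := congrArg natDegree hd1
    rw [natDegree_C_mul hαi₀, natDegree_mul (X_sub_C_ne_zero θ) hDne, natDegree_X_sub_C] at h1
    omega
  · rw [hfam]
    exact hONnew

/-- the induction. -/
theorem exists_ONm_of_det_ne_zero [IsAlgClosed L] (S : Setup L v t) {d : ℕ} (a : Fin d → F)
    (P : Matrix (Fin d) (Fin d) L[X]) (hP : P.det ≠ 0)
    (hON : ONm L v o t (fun i => comb L t (P i) a)) :
    ∃ P' : Matrix (Fin d) (Fin d) L[X], IsUnit P'.det ∧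
      ONm L v o t (fun i => comb L t (P' i) a) := by
  induction hn : P.det.natDegree generalizing P with
  | zero =>
    refine ⟨P, ?_, hON⟩
    obtain ⟨x, hx⟩ := natDegree_eq_zero.mp hn
    rw [← hx]
    have hx0 : x ≠ 0 := by
      rintro rfl
      rw [C_0] at hx
      exact hP hx.symm
    exact (isUnit_iff_ne_zero.mpr hx0).map C
  | succ n ih =>
    obtain ⟨P', hP', hdeg, hON'⟩ := onm_step S a P hP (by omega) hON
    exact ih P' hP' hON' (by omega)

/-- the starting point. -/
theorem exists_ONm_start (S : Setup L v t) {d : ℕ} (β : Fin d → F) (hβ : ONm L v o t β)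
    (hβs : Spans L t β) (a : Fin d → F) (ha : ∀ p : Fin d → L[X], comb L t p a = 0 → p = 0) :
    ∃ P : Matrix (Fin d) (Fin d) L[X], P.det ≠ 0 ∧ ONm L v o t (fun i => comb L t (P i) a) := by
  classical
  have hG := (S.G o)
  obtain ⟨q, P₀, hq, hP₀⟩ := exists_matrix_of_bases hG.inj β hβs a ha β
  obtain ⟨c, hc⟩ := hG.exists_const q
  have hqt : aeval t q ≠ 0 := fun h => hq (hG.inj q h)
  have hc0 : c ≠ 0 := by
    rintro rfl
    rw [map_zero, map_zero] at hc
    exact hqt ((map_eq_zero (v o)).1 hc)
  have hv1 : v o (aeval t (C c⁻¹ * q)) = 1 := by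
    rw [map_mul, aeval_C, map_mul, hc, ← map_mul, ← map_mul, inv_mul_cancel₀ hc0, map_one, map_one]
  have hε : ∀ i, comb L t (fun j => C c⁻¹ * P₀ i j) a = aeval t (C c⁻¹ * q) * β i := by
    intro i
    rw [comb_smul, ← hP₀ i, map_mul, mul_assoc]
  have hON : ONm L v o t (fun i => comb L t ((Matrix.of fun i j => C c⁻¹ * P₀ i j) i) a) := by
    have := hβ.mul_of_v_eq_one S _ hv1
    simp only [← hε] at this
    exact this
  refine ⟨Matrix.of fun i j => C c⁻¹ * P₀ i j, ?_, hON⟩
  intro h0
  obtain ⟨u, hu, huP⟩ := Matrix.exists_vecMul_eq_zero_iff.2 h0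
  apply hu
  apply hON.inj S
  rw [comb_comb, huP, latA_comb_zero_left]

/-- **every lattice has an orthonormal basis (sup norm).** -/
theorem exists_ONm_basis [IsAlgClosed L] (S : Setup L v t) {d : ℕ} (β : Fin d → F)
    (hβ : ONm L v o t β) (hβs : Spans L t β) (Λ : Set F) (a : Fin d → F)
    (ha : IsBasis L t a Λ) :
    ∃ e : Fin d → F, IsBasis L t e Λ ∧ ONm L v o t e := by
  obtain ⟨P, hP, hON⟩ := exists_ONm_start S β hβ hβs a ha.1
  obtain ⟨P', hP', hON'⟩ := exists_ONm_of_det_ne_zero S a P hP hON
  exact ⟨_, ha.of_isUnit_det P' hP', hON'⟩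

end Fermat.Agent.CAR.KLm
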