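import Fermat.Agent.GAL.KL.Defs

/-!
# CAR / KLm : the global step of the key lemma for a FINITE FAMILY of valuations.  Definitions.

`L` algebraically closed, `F ⊇ L(t)` finite, `v : ι → Valuation F Γ₀` a finite nonempty family of valuations
of `F`, all Gauss on `L[t]`.  `NN v x = sup_i v i x` is the sup norm.  This is the port of `Fermat/Agent/TOR/KL2`
(two valuations) to a finite family; `comb`, `Gauss`, `Spans`, `IsBasis`, `IsInt`, `BB`, `II`, `Arch` are reused
from `Fermat/Agent/GAL/KL`.
-/

set_option autoImplicit false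

namespace Fermat.Agent.CAR.KLm

open Polynomial Fermat.Agent.GAL.KL

variable (L : Type*) {F Γ₀ ι : Type*} [Field L] [Field F] [Algebra L F]
  [LinearOrderedCommGroupWithZero Γ₀] [Fintype ι] [Nonempty ι]

/-- the sup norm of a finite nonempty family of valuations. -/
def NN (v : ι → Valuation F Γ₀) (x : F) : Γ₀ :=
  Finset.univ.sup' Finset.univ_nonempty fun i => v i x

omit [Fintype ι] [Nonempty ι] in
/-- all valuations are Gauss on `L[t]` and agree on `L`. -/
structure Setup (v : ι → Valuation F Γ₀) (t : F) : Prop where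
  G : ∀ i, Gauss L (v i) t
  eqL : ∀ (i j : ι) (a : L), v i (algebraMap L F a) = v j (algebraMap L F a)

/-- the family `e` is orthonormal over `L[t]` for the sup norm (`i₀` is any index: all `v i` agree on `L[t]`). -/
def ONm (v : ι → Valuation F Γ₀) (i₀ : ι) (t : F) {d : ℕ} (e : Fin d → F) : Prop :=
  ∀ (p : Fin d → L[X]) (γ : Γ₀), NN v (comb L t p e) ≤ γ ↔ ∀ i, v i₀ (aeval t (p i)) ≤ γ

end Fermat.Agent.CAR.KLm
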