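import Fermat.Agent.CAR.KLm.Defs
import Fermat.Agent.GAL.KL.Basic

/-!
# CAR / KLm : basic API for `NN`, `Setup`, `ONm`
-/

set_option autoImplicit false

namespace Fermat.Agent.CAR.KLm

open Polynomial Fermat.Agent.GAL.KL

variable {L F Γ₀ ι : Type*} [Field L] [Field F] [Algebra L F] [LinearOrderedCommGroupWithZero Γ₀]
  [Fintype ι] [Nonempty ι]
variable {v : ι → Valuation F Γ₀} {i₀ : ι} {t : F}

/-! ### the sup norm -/

theorem NN_le_iff {x : F} {γ : Γ₀} : NN v x ≤ γ ↔ ∀ i, v i x ≤ γ := by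
  simp [NN, Finset.sup'_le_iff]

theorem NN_lt_iff {x : F} {γ : Γ₀} : NN v x < γ ↔ ∀ i, v i x < γ := by
  simp [NN, Finset.sup'_lt_iff]

theorem le_NN (i : ι) (x : F) : v i x ≤ NN v x := NN_le_iff.1 le_rfl i

theorem exists_eq_NN (x : F) : ∃ i, NN v x = v i x := by
  obtain ⟨i, -, hi⟩ := Finset.exists_mem_eq_sup' (Finset.univ_nonempty (α := ι)) fun i => v i x
  exact ⟨i, hi⟩

@[simp] theorem NN_zero : NN v (0 : F) = 0 :=
  le_antisymm (NN_le_iff.2 fun i => by simp) zero_le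

@[simp] theorem NN_one : NN v (1 : F) = 1 := by
  obtain ⟨i, hi⟩ := exists_eq_NN (v := v) (1 : F)
  rw [hi, map_one]

@[simp] theorem NN_neg (x : F) : NN v (-x) = NN v x := by simp [NN, Valuation.map_neg]

theorem NN_eq_zero {x : F} : NN v x = 0 ↔ x = 0 := by
  constructor
  · intro h
    obtain ⟨i⟩ := ‹Nonempty ι›
    have h1 : v i x ≤ 0 := h ▸ le_NN i x
    exact (map_eq_zero (v i)).1 (le_zero_iff.1 h1)
  · rintro rfl; exact NN_zero

theorem NN_add_le (x y : F) : NN v (x + y) ≤ max (NN v x) (NN v y) := by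
  rw [NN_le_iff]
  exact fun i => ((v i).map_add x y).trans (max_le_max (le_NN i x) (le_NN i y))

theorem NN_sub_le (x y : F) : NN v (x - y) ≤ max (NN v x) (NN v y) := by
  rw [sub_eq_add_neg]
  exact (NN_add_le x (-y)).trans (by rw [NN_neg])

theorem NN_add_le' {x y : F} {γ : Γ₀} (hx : NN v x ≤ γ) (hy : NN v y ≤ γ) :
    NN v (x + y) ≤ γ := (NN_add_le x y).trans (max_le hx hy)

theorem NN_sub_le' {x y : F} {γ : Γ₀} (hx : NN v x ≤ γ) (hy : NN v y ≤ γ) :
    NN v (x - y) ≤ γ := (NN_sub_le x y).trans (max_le hx hy)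

theorem NN_add_lt {x y : F} {γ : Γ₀} (hx : NN v x < γ) (hy : NN v y < γ) :
    NN v (x + y) < γ := lt_of_le_of_lt (NN_add_le x y) (max_lt hx hy)

theorem NN_sub_lt {x y : F} {γ : Γ₀} (hx : NN v x < γ) (hy : NN v y < γ) :
    NN v (x - y) < γ := lt_of_le_of_lt (NN_sub_le x y) (max_lt hx hy)

theorem NN_sub_swap (x y : F) : NN v (x - y) = NN v (y - x) := by
  rw [← NN_neg, neg_sub]

theorem NN_mul_le (x y : F) : NN v (x * y) ≤ NN v x * NN v y := by
  rw [NN_le_iff]
  intro i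
  rw [map_mul]
  exact mul_le_mul' (le_NN i x) (le_NN i y)

/-- semilinearity over the elements on which all valuations agree. -/
theorem NN_mul_of_eq (i₀ : ι) {a : F} (h : ∀ i, v i a = v i₀ a) (x : F) :
    NN v (a * x) = v i₀ a * NN v x := by
  apply le_antisymm
  · rw [NN_le_iff]
    intro i
    rw [map_mul, h i]
    exact mul_le_mul' le_rfl (le_NN i x)
  · obtain ⟨i, hi⟩ := exists_eq_NN (v := v) x
    rw [hi, ← h i, ← map_mul]
    exact le_NN i _

theorem NN_sum_le {κ : Type*} (s : Finset κ) (f : κ → F) {γ : Γ₀}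
    (h : ∀ i ∈ s, NN v (f i) ≤ γ) : NN v (∑ i ∈ s, f i) ≤ γ := by
  rw [NN_le_iff]
  exact fun j => Valuation.map_sum_le (v j) fun i hi => NN_le_iff.1 (h i hi) j

theorem NN_sum_lt {κ : Type*} (s : Finset κ) (f : κ → F) {γ : Γ₀} (hγ : γ ≠ 0)
    (h : ∀ i ∈ s, NN v (f i) < γ) : NN v (∑ i ∈ s, f i) < γ := by
  rw [NN_lt_iff]
  exact fun j => Valuation.map_sum_lt (v j) hγ fun i hi => NN_lt_iff.1 (h i hi) j

theorem NN_eq_one_of_sub_one_lt {x : F} (h : NN v (x - 1) < 1) : NN v x = 1 := by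
  obtain ⟨i, hi⟩ := exists_eq_NN (v := v) x
  rw [hi]
  have h1 := NN_lt_iff.1 h i
  have : x = 1 + (x - 1) := by ring
  rw [this]
  exact Valuation.map_one_add_of_lt (v i) h1

/-! ### `Setup` -/

omit [Fintype ι] [Nonempty ι] in
theorem Setup.inv (S : Setup L v t) : Setup L v t⁻¹ := ⟨fun i => (S.G i).inv, S.eqL⟩

omit [Fintype ι] [Nonempty ι] in
theorem Setup.eq_aeval (S : Setup L v t) (i j : ι) (p : L[X]) :
    v i (aeval t p) = v j (aeval t p) := by
  apply le_antisymm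
  · rw [S.G i p]
    intro k
    rw [S.eqL i j]
    exact (S.G j p _).1 le_rfl k
  · rw [S.G j p]
    intro k
    rw [S.eqL j i]
    exact (S.G i p _).1 le_rfl k

theorem Setup.NN_aeval_mul (S : Setup L v t) (i₀ : ι) (p : L[X]) (x : F) :
    NN v (aeval t p * x) = v i₀ (aeval t p) * NN v x :=
  NN_mul_of_eq i₀ (fun i => S.eq_aeval i i₀ p) x

theorem Setup.NN_algebraMap_mul (S : Setup L v t) (i₀ : ι) (a : L) (x : F) :
    NN v (algebraMap L F a * x) = v i₀ (algebraMap L F a) * NN v x :=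
  NN_mul_of_eq i₀ (fun i => S.eqL i i₀ a) x

theorem Setup.NN_t_pow_mul (S : Setup L v t) (m : ℕ) (x : F) :
    NN v (t ^ m * x) = NN v x := by
  obtain ⟨i₀⟩ := ‹Nonempty ι›
  rw [NN_mul_of_eq i₀ (fun i => by rw [map_pow, map_pow, (S.G i).v_t, (S.G i₀).v_t]), map_pow,
    (S.G i₀).v_t, one_pow, one_mul]

theorem Setup.NN_t_inv_pow_mul (S : Setup L v t) (m : ℕ) (x : F) :
    NN v ((t⁻¹) ^ m * x) = NN v x := S.inv.NN_t_pow_mul m x

omit [Fintype ι] [Nonempty ι] in
theorem Setup.natCast_eq (S : Setup L v t) (i j : ι) (n : ℕ) : v i (n : F) = v j (n : F) := by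
  have := S.eqL i j (n : L)
  rwa [map_natCast] at this

/-! ### orthonormal families -/

theorem ONm.inj (S : Setup L v t) {d : ℕ} {e : Fin d → F} (he : ONm L v i₀ t e)
    (p : Fin d → L[X]) (h : comb L t p e = 0) : p = 0 := by
  have h1 := (he p 0).mp (by rw [h, NN_zero])
  funext i
  have h2 := h1 i
  rw [le_zero_iff, map_eq_zero] at h2
  exact (S.G i₀).inj _ h2

theorem ONm.lt_iff {d : ℕ} {e : Fin d → F} (he : ONm L v i₀ t e)
    (p : Fin d → L[X]) (γ : Γ₀) (hγ : γ ≠ 0) :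
    NN v (comb L t p e) < γ ↔ ∀ i, v i₀ (aeval t (p i)) < γ := by
  constructor
  · intro h i
    exact lt_of_le_of_lt ((he p _).mp le_rfl i) h
  · intro h
    obtain ⟨δ, hδ, hb⟩ := exists_lt_bound Finset.univ (fun i => v i₀ (aeval t (p i))) γ hγ
      (fun i _ => h i)
    exact lt_of_le_of_lt ((he p δ).mpr fun i => hb i (Finset.mem_univ i)) hδ

theorem ONm.NN_eq_one {d : ℕ} {e : Fin d → F} (he : ONm L v i₀ t e) (i : Fin d) :
    NN v (e i) = 1 := by
  classical
  have h := he (Pi.single i 1)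
  rw [comb_single, map_one, one_mul] at h
  apply le_antisymm
  · rw [h]
    intro j
    by_cases hj : j = i
    · subst hj
      rw [Pi.single_eq_same, map_one, map_one]
    · rw [Pi.single_eq_of_ne hj, map_zero, map_zero]
      exact zero_le
  · have h1 := (h (NN v (e i))).mp le_rfl i
    rwa [Pi.single_eq_same, map_one, map_one] at h1

theorem ONm.inv (S : Setup L v t) {d : ℕ} {e : Fin d → F} (he : ONm L v i₀ t e) :
    ONm L v i₀ t⁻¹ e := by
  intro p γ
  set N := Finset.univ.sup fun i => (p i).natDegree with hN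
  have hp : ∀ i, (p i).natDegree ≤ N := fun i =>
    Finset.le_sup (f := fun i => (p i).natDegree) (Finset.mem_univ i)
  rw [comb_inv_eq (S.G i₀).ne_zero N p hp, S.NN_t_inv_pow_mul, he]
  refine forall_congr' fun i => ?_
  rw [(S.G i₀).v_aeval_inv N (p i) (hp i)]

/-- multiplying an orthonormal family by an element of `L[t]` of valuation one. -/
theorem ONm.mul_of_v_eq_one (S : Setup L v t) {d : ℕ} {β : Fin d → F} (hβ : ONm L v i₀ t β)
    (q : L[X]) (hq : v i₀ (aeval t q) = 1) : ONm L v i₀ t (fun i => aeval t q * β i) := by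
  intro p γ
  have : comb L t p (fun i => aeval t q * β i) = aeval t q * comb L t p β := by
    simp only [comb, Finset.mul_sum]
    exact Finset.sum_congr rfl fun j _ => by ring
  rw [this, S.NN_aeval_mul i₀, hq, one_mul]
  exact hβ p γ

end Fermat.Agent.CAR.KLm
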