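import Fermat.Agent.CAR.KLm.Basic
import Fermat.Agent.GAL.KL.Newton

/-!
# CAR / KLm : Newton iteration inside a chart, for a finite family of valuations simultaneously
(port of `TOR/KL2/Newton.lean`; the Newton step `G ↦ (1 - ε/n) G` does not depend on the valuation)
-/

set_option autoImplicit false

namespace Fermat.Agent.CAR.KLm

open Polynomial Fermat.Agent.GAL.KL

variable {L F Γ₀ ι : Type*} [Field L] [Field F] [Algebra L F] [LinearOrderedCommGroupWithZero Γ₀]
  [Fintype ι] [Nonempty ι]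
variable {v : ι → Valuation F Γ₀} {t : F}

/-- the explicit Newton step, for one valuation. -/
theorem newton_step_explicit (u : Valuation F Γ₀) {n : ℕ} (hvn : u (n : F) = 1) {w G : F}
    (hG1 : u (G - 1) < 1) (h1 : u (G ^ n * w - 1) < 1) :
    u (((1 - (G ^ n * w - 1) / n) * G) ^ n * w - 1) ≤ u (G ^ n * w - 1) ^ 2 ∧
      u ((1 - (G ^ n * w - 1) / n) * G - 1) < 1 := by
  have hnF : (n : F) ≠ 0 := by
    intro h
    rw [h, map_zero] at hvn
    exact zero_ne_one hvn
  set ε : F := G ^ n * w - 1 with hε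
  set δ : F := ε / n with hδ
  have hvδ : u δ = u ε := by
    rw [hδ, map_div₀, hvn, div_one]
  constructor
  · obtain ⟨κ, hκ, hb⟩ := newton_binom (v := u) (x := -δ)
      (by rw [Valuation.map_neg, hvδ]; exact h1.le) n
    have hnδ : (n : F) * δ = ε := by
      rw [hδ]; field_simp
    have key : ((1 - δ) * G) ^ n * w - 1 = -ε ^ 2 + (1 + ε) * (δ ^ 2 * κ) := by
      have e1 : ((1 - δ) * G) ^ n * w = (1 + -δ) ^ n * (1 + ε) := by
        rw [hε, mul_pow]; ring
      rw [e1, hb]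
      have : (n : F) * -δ = -ε := by rw [mul_neg, hnδ]
      rw [this]
      ring
    rw [key]
    refine Valuation.map_add_le u ?_ ?_
    · rw [Valuation.map_neg, map_pow]
    · rw [map_mul, map_mul, map_pow, hvδ, Valuation.map_one_add_of_lt u h1, one_mul]
      exact mul_le_of_le_one_right' hκ
  · have : (1 - δ) * G - 1 = (G - 1) - δ * G := by ring
    rw [this]
    refine Valuation.map_sub_lt u hG1 ?_
    rw [map_mul, newton_eq_one_of_sub_lt hG1, mul_one, hvδ]
    exact h1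

/-- the Newton step stays in the lattice. -/
theorem newton_step_mem {n : ℕ} {w G : F} (hG : G ∈ II L t n w) :
    (1 - (G ^ n * w - 1) / n) * G ∈ II L t n w := by
  have hεint : IsInt L t (G ^ n * w - 1) := IsInt.sub hG IsInt.one
  have hδ : (G ^ n * w - 1) / n = algebraMap L F ((n : L)⁻¹) * (G ^ n * w - 1) := by
    rw [map_inv₀, map_natCast, div_eq_inv_mul]
  rw [hδ]
  exact II.mul (IsInt.sub IsInt.one (IsInt.mul (IsInt.algebraMap _) hεint)) hG

omit [Fintype ι] [Nonempty ι] in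
/-- iterate of the Newton step. -/
lemma newtonm_iter {n : ℕ} (hvn : ∀ i, v i (n : F) = 1) {w G : F}
    (hG : G ∈ II L t n w) (hG1 : ∀ i, v i (G - 1) < 1)
    (h1 : ∀ i, v i (G ^ n * w - 1) < 1) (k : ℕ) :
    ∃ G' : F, G' ∈ II L t n w ∧ (∀ i, v i (G' ^ n * w - 1) ≤ v i (G ^ n * w - 1) ^ (2 ^ k)) ∧
      ∀ i, v i (G' - 1) < 1 := by
  induction k with
  | zero => exact ⟨G, hG, by simp, hG1⟩
  | succ k ih =>
    obtain ⟨G₁, hG₁, hle, hG₁1⟩ := ih
    have h1' : ∀ i, v i (G₁ ^ n * w - 1) < 1 := fun i =>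
      lt_of_le_of_lt (hle i) (pow_lt_one₀ zero_le (h1 i) (by positivity))
    refine ⟨_, newton_step_mem hG₁, fun i => ?_, fun i => ?_⟩
    · refine (newton_step_explicit (v i) (hvn i) (hG₁1 i) (h1' i)).1.trans ?_
      rw [pow_succ 2 k, pow_mul]
      exact pow_le_pow_left₀ zero_le (hle i) 2
    · exact (newton_step_explicit (v i) (hvn i) (hG₁1 i) (h1' i)).2

lemma pow_mul_sub_one_lt (u : Valuation F Γ₀) {n : ℕ} {w G : F} (hG1 : u (G - 1) < 1)
    (hw : u (w - 1) < 1) : u (G ^ n * w - 1) < 1 := by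
  have : G ^ n * w - 1 = (G ^ n - 1) * w + (w - 1) := by ring
  rw [this]
  refine Valuation.map_add_lt u ?_ hw
  rw [map_mul, newton_eq_one_of_sub_lt hw, mul_one]
  exact newton_pow_sub_one_lt hG1 n

/-- **Newton for a finite family of valuations.** -/
theorem newtonm (hA : ∀ i, Arch (v i)) {n : ℕ} (hvn : ∀ i, v i (n : F) = 1)
    {w G : F} (hG : G ∈ II L t n w)
    (hG1 : NN v (G - 1) < 1) (hw : NN v (w - 1) < 1) (γ : Γ₀) (hγ : γ ≠ 0) :
    ∃ G' : F, G' ∈ II L t n w ∧ NN v (G' ^ n * w - 1) < γ ∧ NN v (G' - 1) < 1 := by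
  have hG1' := NN_lt_iff.1 hG1
  have hw' := NN_lt_iff.1 hw
  have h1 : ∀ i, v i (G ^ n * w - 1) < 1 := fun i =>
    pow_mul_sub_one_lt (v i) (n := n) (hG1' i) (hw' i)
  choose m hm using fun i => hA i _ (h1 i) γ hγ
  obtain ⟨G', hG', hle, hG'1⟩ := newtonm_iter hvn hG hG1' h1 (Finset.univ.sup m)
  refine ⟨G', hG', NN_lt_iff.2 fun i => lt_of_le_of_lt ((hle i).trans ?_) (hm i),
    NN_lt_iff.2 hG'1⟩
  exact pow_le_pow_of_le_one zero_le (h1 i).le
    ((Finset.le_sup (f := m) (Finset.mem_univ i)).trans (Nat.lt_two_pow_self).le)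

/-- comparison of two approximate roots. -/
theorem closem {n : ℕ} (hvn : ∀ i, v i (n : F) = 1) {w a b : F}
    (hw : NN v (w - 1) < 1) (ha : NN v (a - 1) < 1) (hb : NN v (b - 1) < 1) (γ : Γ₀)
    (ha' : NN v (a ^ n * w - 1) < γ) (hb' : NN v (b ^ n * w - 1) < γ) :
    NN v (a - b) < γ :=
  NN_lt_iff.2 fun i => close_of_pow_close (hvn i) (NN_lt_iff.1 hw i) (NN_lt_iff.1 ha i)
    (NN_lt_iff.1 hb i) γ (NN_lt_iff.1 ha' i) (NN_lt_iff.1 hb' i)

end Fermat.Agent.CAR.KLm
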